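import Fermat.Agent.S52.SwitchEven

set_option autoImplicit false

/-!
# S01 from `P2Stmt`, `S59Sqf`, S38 and S39
-/

namespace Fermat.Agent.S01Final

open Fermat.Agent.Descent Fermat.Agent.RT8

/-- no Frey package -/
theorem no_frey (hP2 : P2Stmt) (h59 : S59Sqf) (h38 : S38Prop) (h39 : S39Prop)
    (P : FreyPackage) : False :=
  no_frey_of_P2 hP2 Fermat.Agent.S52.Model.s52Even (S59Even.of_sqf h59) h38 h39 P

/-- **S01 from route P2, `S59Sqf`, S38 and S39.** -/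
theorem s01 (hP2 : P2Stmt) (h59 : S59Sqf) (h38 : S38Prop) (h39 : S39Prop)
    (n : ℕ) (hn : 3 ≤ n) (a b c : ℕ) (ha : 0 < a) (hb : 0 < b) (hc : 0 < c) :
    a ^ n + b ^ n ≠ c ^ n :=
  s01_of_P2 hP2 Fermat.Agent.S52.Model.s52Even (S59Even.of_sqf h59) h38 h39 n hn a b c ha hb hc


end Fermat.Agent.S01Final
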