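import Fermat.Agent.S01Final.Final
import Fermat.Agent.P2.Defs

set_option autoImplicit false

namespace Fermat.Agent.S01Final

theorem p2Stmt_iff : P2Stmt ↔ Fermat.Agent.P2.P2Stmt := Iff.rfl

end Fermat.Agent.S01Final
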