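import Fermat.Agent.Descent.Even
import Fermat.Agent.S60Wiring
import Fermat.Agent.S01Wiring.Basic
import Fermat.Agent.RT8.S59Sqf
import Fermat.Agent.S02
import Fermat.Agent.S51

set_option autoImplicit false

/-!
# Final assembly of S01 via route P2

`P2Stmt` (residual modularity at `3` for semistable curves with even discriminant),
`S52Even` (the 3-5 switch keeping `2 ∣ Δ`), `S59Sqf` (modularity lifting), S38, S39 ⟹ S01.
-/

open WeierstrassCurve WeierstrassCurve.Affine WeierstrassCurve.Affine.Point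

namespace Fermat.Agent.S01Final

open Fermat.Agent.Descent Fermat.Agent.RT8

/-- The output of route P2. -/
def P2Stmt : Prop :=
  ∀ W : WeierstrassCurve ℤ, W.Δ ≠ 0 → W.IsSemistableModel → (2 : ℤ) ∣ W.Δ →
    W.ModRepIsIrreducible 3 →
    ∃ M : ℕ, 0 < M ∧ Squarefree M ∧ W.IsResiduallyModularOfLevel 3 M

/-- The 3-5 switch keeping `2 ∣ Δ`. -/
def S52Even : Prop :=
  ∀ (W : WeierstrassCurve ℤ), W.Δ ≠ 0 → W.IsSemistableModel → (2 : ℤ) ∣ W.Δ →
    W.ModRepIsIrreducible 5 →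
    ∃ W' : WeierstrassCurve ℤ, W'.Δ ≠ 0 ∧ W'.IsSemistableModel ∧ (2 : ℤ) ∣ W'.Δ ∧
      W'.ModRepIsIrreducible 3 ∧
      ∀ ℓ : ℕ, ℓ.Prime → W.IsGoodPrimeFor ℓ → W'.IsGoodPrimeFor ℓ → ℓ ≠ 5 →
        (5 : ℤ) ∣ (W'.apOfModel ℓ - W.apOfModel ℓ)

/-- The modularity lifting theorem needed (squarefree residual level, even discriminant). -/
def S59Even : Prop :=
  ∀ (p : ℕ) (_hp : p = 3 ∨ p = 5)
    (W : WeierstrassCurve ℤ) (_hΔ : W.Δ ≠ 0) (_hW : W.IsSemistableModel) (_h2 : (2 : ℤ) ∣ W.Δ)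
    (_hirr : W.ModRepIsIrreducible p)
    (M₀ : ℕ) (_hM₀ : Squarefree M₀) (_hres₀ : W.IsResiduallyModularOfLevel p M₀),
    Mlc1IsModularModelOfExactConductorLevel W

theorem S59Even.of_sqf (h : S59Sqf) : S59Even := fun p hp W h1 h2 _ h3 M hM hres =>
  h p hp W h1 h2 h3 M hM hres

/-- exact-conductor modularity of semistable curves with even discriminant -/
theorem s60Even (hP2 : P2Stmt) (h52 : S52Even) (h59 : S59Even) : S60Even := by
  intro W hΔ hW h2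
  rcases Fermat.Agent.S51.result W hΔ hW with h3 | h5
  · obtain ⟨M, -, hM, hres⟩ := hP2 W hΔ hW h2 h3
    exact h59 3 (Or.inl rfl) W hΔ hW h2 h3 M hM hres
  · obtain ⟨W', hΔ', hW', h2', h3', hcongr⟩ := h52 W hΔ hW h2 h5
    obtain ⟨M, -, hM, hres⟩ := hP2 W' hΔ' hW' h2' h3'
    have hmod := h59 3 (Or.inl rfl) W' hΔ' hW' h2' h3' M hM hres
    obtain ⟨N, -, hsq, hresN⟩ := S60Wiring.residuallyModular_five_of_congr hmod hcongr
    exact h59 5 (Or.inr rfl) W hΔ hW h2 h5 N hsq hresN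

/-- No Frey package, via P2. -/
theorem no_frey_of_P2 (hP2 : P2Stmt) (h52 : S52Even) (h59 : S59Even) (h38 : S38Prop)
    (h39 : S39Prop) (P : FreyPackage) : False :=
  no_frey_even (s60Even hP2 h52 h59) h38 h39 P

/-- **S01 from P2, S52Even, S59Even, S38, S39.** -/
theorem s01_of_P2 (hP2 : P2Stmt) (h52 : S52Even) (h59 : S59Even) (h38 : S38Prop)
    (h39 : S39Prop) (n : ℕ) (hn : 3 ≤ n) (a b c : ℕ) (ha : 0 < a) (hb : 0 < b) (hc : 0 < c) :
    a ^ n + b ^ n ≠ c ^ n :=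
  S01Wiring.flt_of_S02_S03 Fermat.Agent.S02.result (no_frey_of_P2 hP2 h52 h59 h38 h39)
    n hn a b c ha hb hc

end Fermat.Agent.S01Final
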